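import Fermat.Agent.S24.DiffPlace

/-!
# P-RED, task R-DESC (helper77): valuation calculus at a place

For a place `v` of `F / K` we write `Ge v n x` for "`x ∈ π ^ n • A_v`", i.e. `x = 0` or
`n ≤ ord_v x`, and prove the ultrametric calculus in this form.
-/

set_option autoImplicit false

open AlgebraicCurve

namespace Fermat.Agent.Red.Desc

open Fermat.Agent.S24.DiffPlace

variable {K F : Type*} [Field K] [Field F] [Algebra K F] (v : Place K F)

/-- `x = 0` or `n ≤ ord_v x` -/
def Ge (n : ℤ) (x : F) : Prop := x = 0 ∨ n ≤ v.ord x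

variable {v}

theorem Ge.zero (n : ℤ) : Ge v n (0 : F) := Or.inl rfl

theorem Ge.of_le {n : ℤ} {x : F} (h : n ≤ v.ord x) : Ge v n x := Or.inr h

theorem Ge.le {n : ℤ} {x : F} (h : Ge v n x) (hx : x ≠ 0) : n ≤ v.ord x :=
  h.resolve_left hx

theorem Ge.mono {n m : ℤ} {x : F} (h : Ge v m x) (hnm : n ≤ m) : Ge v n x := by
  rcases h with h | h
  · exact Or.inl h
  · exact Or.inr (hnm.trans h)

theorem ge_zero_iff_mem {x : F} : Ge v 0 x ↔ x ∈ v.toValuationSubring := by
  constructor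
  · rintro (h | h)
    · rw [h]; exact zero_mem _
    · exact mem_of_ord_nonneg v h
  · intro h
    exact Or.inr (ord_nonneg_of_mem v h)

theorem ord_neg' (x : F) : v.ord (-x) = v.ord x := by
  rcases eq_or_ne x 0 with rfl | hx
  · simp
  · have h1 : (-x) = algebraMap K F (-1) * x := by simp
    have h2 : algebraMap K F (-1 : K) ≠ 0 := by simp
    rw [h1, v.ord_mul h2 hx, ord_algebraMap, zero_add]

theorem Ge.neg {n : ℤ} {x : F} (h : Ge v n x) : Ge v n (-x) := by
  rcases h with h | h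
  · exact Or.inl (by rw [h, neg_zero])
  · exact Or.inr (by rw [ord_neg']; exact h)

theorem ord_add_ge_left {x y : F} (hx : x ≠ 0) (hy : y ≠ 0) (hxy : x + y ≠ 0)
    (hle : v.ord x ≤ v.ord y) : v.ord x ≤ v.ord (x + y) := by
  have h1 : 0 ≤ v.ord (y * x⁻¹) := by
    rw [v.ord_mul hy (inv_ne_zero hx), v.ord_inv]
    omega
  have h2 : y * x⁻¹ ∈ v.toValuationSubring := mem_of_ord_nonneg v h1
  have h3 : 1 + y * x⁻¹ ∈ v.toValuationSubring := add_mem (one_mem _) h2
  have h4 : 0 ≤ v.ord (1 + y * x⁻¹) := ord_nonneg_of_mem v h3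
  have h5 : x + y = x * (1 + y * x⁻¹) := by
    field_simp
  have h6 : (1 + y * x⁻¹) ≠ 0 := by
    intro h0
    rw [h0, mul_zero] at h5
    exact hxy h5
  rw [h5, v.ord_mul hx h6]
  omega

theorem Ge.add {n : ℤ} {x y : F} (hx : Ge v n x) (hy : Ge v n y) : Ge v n (x + y) := by
  rcases eq_or_ne x 0 with rfl | hx0
  · rwa [zero_add]
  rcases eq_or_ne y 0 with rfl | hy0
  · rwa [add_zero]
  rcases eq_or_ne (x + y) 0 with h0 | h0
  · exact Or.inl h0
  refine Or.inr ?_
  rcases le_total (v.ord x) (v.ord y) with h | h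
  · exact (hx.le hx0).trans (ord_add_ge_left hx0 hy0 h0 h)
  · have := ord_add_ge_left hy0 hx0 (by rwa [add_comm]) h
    rw [add_comm] at this
    exact (hy.le hy0).trans this

theorem Ge.sub {n : ℤ} {x y : F} (hx : Ge v n x) (hy : Ge v n y) : Ge v n (x - y) := by
  rw [sub_eq_add_neg]
  exact hx.add hy.neg

theorem Ge.mul {n m : ℤ} {x y : F} (hx : Ge v n x) (hy : Ge v m y) : Ge v (n + m) (x * y) := by
  rcases eq_or_ne x 0 with rfl | hx0
  · rw [zero_mul]; exact Ge.zero _
  rcases eq_or_ne y 0 with rfl | hy0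
  · rw [mul_zero]; exact Ge.zero _
  refine Or.inr ?_
  rw [v.ord_mul hx0 hy0]
  exact add_le_add (hx.le hx0) (hy.le hy0)

theorem Ge.sum {ι : Type*} {n : ℤ} (s : Finset ι) {f : ι → F} (h : ∀ i ∈ s, Ge v n (f i)) :
    Ge v n (∑ i ∈ s, f i) := by
  classical
  induction s using Finset.induction_on with
  | empty => simpa using Ge.zero n
  | insert a s ha ih =>
    rw [Finset.sum_insert ha]
    exact (h a (Finset.mem_insert_self a s)).add
      (ih fun i hi => h i (Finset.mem_insert_of_mem hi))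

theorem ord_pow' (x : F) (n : ℕ) : v.ord (x ^ n) = n * v.ord x := by
  have := v.ord_zpow x (n : ℤ)
  rwa [zpow_natCast] at this

theorem Ge.pow {x : F} (hx : Ge v 0 x) (n : ℕ) : Ge v 0 (x ^ n) := by
  rw [ge_zero_iff_mem] at hx ⊢
  exact pow_mem hx n

theorem not_ge_succ {x : F} (hx : x ≠ 0) : ¬ Ge v (v.ord x + 1) x := by
  rintro (h | h)
  · exact hx h
  · omega

/-- if `x ≠ 0` and `x - y ∈ π ^ (ord x + 1) A` then `y ≠ 0` and `ord y = ord x` -/
theorem ord_eq_of_ge_sub {x y : F} (hx : x ≠ 0) (h : Ge v (v.ord x + 1) (x - y)) :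
    y ≠ 0 ∧ v.ord y = v.ord x := by
  have hy : y ≠ 0 := by
    rintro rfl
    rw [sub_zero] at h
    exact not_ge_succ hx h
  refine ⟨hy, ?_⟩
  by_contra hne
  rcases lt_or_gt_of_ne hne with hlt | hgt
  · -- ord y < ord x : then x = (x - y) + y has order ≥ ord y + 1 ... contradiction with y
    have h1 : Ge v (v.ord y + 1) (x - y) := h.mono (by omega)
    have h2 : Ge v (v.ord y + 1) x := Or.inr (by omega)
    have h3 : Ge v (v.ord y + 1) (x - (x - y)) := h2.sub h1
    rw [sub_sub_cancel] at h3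
    exact not_ge_succ hy h3
  · have h2 : Ge v (v.ord x + 1) y := Or.inr (by omega)
    have h3 : Ge v (v.ord x + 1) (x - y + y) := h.add h2
    rw [sub_add_cancel] at h3
    exact not_ge_succ hx h3

/-- elements of the maximal ideal -/
theorem ge_one_of_mem_maximalIdeal {z : v.toValuationSubring}
    (hz : z ∈ IsLocalRing.maximalIdeal v.toValuationSubring) : Ge v 1 (z : F) := by
  rcases eq_or_ne z 0 with rfl | h0
  · exact Or.inl rfl
  · exact Or.inr (ord_pos_of_mem_maximalIdeal v hz h0)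

theorem exists_ord_eq_one : ∃ π : F, π ≠ 0 ∧ v.ord π = 1 := by
  obtain ⟨π, hπ⟩ := IsDiscreteValuationRing.exists_irreducible v.toValuationSubring
  refine ⟨(π : F), ?_, v.ord_coe_irreducible hπ⟩
  intro h0
  exact hπ.ne_zero (Subtype.ext h0)

end Fermat.Agent.Red.Desc
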