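import Fermat.Agent.S37.Defs
import Fermat.Agent.S24.EmbCusp
import Fermat.Agent.S24.PlaceOfEmb
import Fermat.Agent.S24.CuspShift

/-!
# P-RED, R-DESC-B: the place of `F_M` at the cusp `0`

For `N ∣ M` the cusp `0` of `X₀(M)` has width `M` and the cusp `0` of `X₀(N)` has width `N`;
hence the place `P` of `F_M` at the cusp `0` is ramified of index `M / N` over `F_N`:
the order at `P` of every nonzero function of level `N` is divisible by `M / N`.

Main statement: `Fermat.Agent.Red.Desc.exists_place_cuspZero`.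
-/

set_option autoImplicit false

open ModularCurve AlgebraicCurve CongruenceSubgroup IntermediateField UpperHalfPlane
open scoped MatrixGroups Manifold

noncomputable section

namespace Fermat.Agent.Red.Desc

open Fermat.Agent.S37
open Fermat.Agent.S28 (HasTExp jAn jAt cEmb twist tParam twistDil)

/-- `Γ₀(M) ≤ Γ₀(N)` for `N ∣ M`. -/
theorem h51_mem_Gamma0_of_dvd {N M : ℕ} (h : N ∣ M) {γ : SL(2, ℤ)} (hγ : γ ∈ Gamma0 M) :
    γ ∈ Gamma0 N := by
  rw [Fermat.Agent.S28.Cusp.mem_Gamma0_iff_dvd] at hγ ⊢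
  exact (Int.natCast_dvd_natCast.mpr h).trans hγ

/-- change of period from `N` to a multiple `M` of `N`. -/
theorem h51_hasTExp_of_dvd {N M : ℕ} [NeZero N] [NeZero M] (h : N ∣ M) {G : ℍ → ℂ}
    {s : LaurentSeries ℂ} (hs : HasTExp N G s) : ∃ s' : LaurentSeries ℂ, HasTExp M G s' := by
  have hN : 0 < N := Nat.pos_of_ne_zero (NeZero.ne N)
  have hM : 0 < M := Nat.pos_of_ne_zero (NeZero.ne M)
  have he0 : 0 < M / N := Nat.div_pos (Nat.le_of_dvd hM h) hN
  have : NeZero (M / N) := ⟨he0.ne'⟩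
  have he : 1 * M = (M / N) * (1 * N) := by
    rw [one_mul, one_mul, Nat.div_mul_cancel h]
  have := hs.affine (M := N) (N := M) (a := 1) (d := 1) (e := M / N) (b := 0)
    one_pos hN hM he id (fun τ => by simp)
  exact ⟨_, this⟩

/-- an analytic representation at level `N` is an analytic representation at level `M`,
`N ∣ M`. -/
theorem h51_isAn_degen {N M : ℕ} [NeZero N] [NeZero M] (h : N ∣ M) {y : FF N} {P Q : ℍ → ℂ}
    (hy : Fermat.Agent.S24.IsAn N y P Q) : Fermat.Agent.S24.IsAn M (degen h y) P Q where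
  holoP := hy.holoP
  holoQ := hy.holoQ
  Q_ne := hy.Q_ne
  invP := fun γ hγ τ => hy.invP γ (h51_mem_Gamma0_of_dvd h hγ) τ
  invQ := fun γ hγ τ => hy.invQ γ (h51_mem_Gamma0_of_dvd h hγ) τ
  expP := fun g => by
    obtain ⟨s, hs⟩ := hy.expP g
    exact h51_hasTExp_of_dvd h hs
  expQ := fun g => by
    obtain ⟨s, hs⟩ := hy.expQ g
    exact h51_hasTExp_of_dvd h hs
  rel := by
    obtain ⟨p, q, hp, hq, hrel⟩ := hy.rel
    refine ⟨p, q, hp, hq, ?_⟩
    rw [coe_degen]
    exact hrel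

/-- the lower left entry of `S * T ^ N * S⁻¹` is `-N`. -/
theorem h51_conj_mem_Gamma0 (N : ℕ) :
    ModularGroup.S * ModularGroup.T ^ N * ModularGroup.S⁻¹ ∈ Gamma0 N := by
  rw [Fermat.Agent.S28.Cusp.mem_Gamma0_iff_dvd]
  have hT : ((ModularGroup.T ^ N : SL(2, ℤ)) : Matrix (Fin 2) (Fin 2) ℤ)
      = !![1, (N : ℤ); 0, 1] := by
    have := ModularGroup.coe_T_zpow (N : ℤ)
    rwa [zpow_natCast] at this
  have h1 : (ModularGroup.S * ModularGroup.T ^ N * ModularGroup.S⁻¹ : SL(2, ℤ)) 1 0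
      = -(N : ℤ) := by
    rw [Matrix.SpecialLinearGroup.coe_mul, Matrix.SpecialLinearGroup.coe_mul,
      Matrix.SpecialLinearGroup.coe_inv, hT, ModularGroup.coe_S, Matrix.adjugate_fin_two]
    simp [Matrix.mul_apply, Fin.sum_univ_two]
  rw [h1]
  exact (dvd_refl _).neg_right

/-- a `Γ₀(N)`-invariant function composed with `S` is invariant under `T ^ N`. -/
theorem h51_periodic {N : ℕ} {R : ℍ → ℂ}
    (hR : ∀ γ ∈ Gamma0 N, ∀ τ : ℍ, R (γ • τ) = R τ) (τ : ℍ) :
    R (ModularGroup.S • (ModularGroup.T ^ N • τ)) = R (ModularGroup.S • τ) := by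
  have h2 : ModularGroup.S • (ModularGroup.T ^ N • τ)
      = (ModularGroup.S * ModularGroup.T ^ N * ModularGroup.S⁻¹) • (ModularGroup.S • τ) := by
    rw [← mul_smul, ← mul_smul, inv_mul_cancel_right]
  rw [h2, hR _ (h51_conj_mem_Gamma0 N)]

/-- the expansion of `j(Mτ)` at the cusp `0` (period `M`) has order `-1`. -/
theorem h51_exists_exp_jAt (M : ℕ) [NeZero M] :
    ∃ p : LaurentSeries ℂ, HasTExp M (fun τ => jAt M (ModularGroup.S • τ)) p ∧ p.order = -1 := by
  have hM : 0 < M := Nat.pos_of_ne_zero (NeZero.ne M)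
  obtain ⟨a, d, b, φ, ha, hd, had, hgcd, -, -, hφ, -, hj⟩ :=
    Fermat.Agent.S28.Cusp.cusp_exists_data M hM ModularGroup.S
  have hS10 : (ModularGroup.S : SL(2, ℤ)) 1 0 = 1 := by
    simp [ModularGroup.coe_S]
  have ha1 : a = 1 := by
    rw [hgcd, hS10]
    simp
  subst ha1
  have hdM : d = M := by simpa using had
  subst hdM
  have he : 1 * d = 1 * (d * 1) := by ring
  have h1 := Fermat.Agent.S28.Cusp.hasTExp_jAn'.affine (M := 1) (N := d) (a := 1) (d := d)
    (e := 1) (b := b) hd one_pos hM he φ (fun τ => by rw [hφ τ])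
  refine ⟨_, h1.congr (fun τ => (hj τ).symm), ?_⟩
  rw [twistDil, Fermat.Agent.S28.order_qExpand,
    Fermat.Agent.S24.h58_order_twist (Complex.exp_ne_zero _),
    Fermat.Agent.S28.Cusp.order_cEmb_jq]
  norm_num

/-- **R-DESC-B**: the place of `F_M` at the cusp `0`: the orders of the nonzero functions of
level `N ∣ M` are divisible by `M / N`. -/
theorem exists_place_cuspZero (N M : ℕ) [NeZero N] [NeZero M] (h : N ∣ M) :
    ∃ P : Place Kbar (FF M), ∀ y : FF N, y ≠ 0 → ((M / N : ℕ) : ℤ) ∣ P.ord (degen h y) := by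
  have hN : 0 < N := Nat.pos_of_ne_zero (NeZero.ne N)
  have hM : 0 < M := Nat.pos_of_ne_zero (NeZero.ne M)
  -- the embedding at the cusp `0`
  set g : SL(2, ℤ) := ModularGroup.S⁻¹ with hg
  have hginv : g⁻¹ = ModularGroup.S := by rw [hg, inv_inv]
  set E : FF M →+* LaurentSeries ℂ := Fermat.Agent.S24.h84_E M g with hE
  -- the function `j(q^M)`
  set jM : FF M := Fermat.Agent.S24.jdBar M M (dvd_refl M) with hjM
  obtain ⟨p0, hp0, hp0ord⟩ := h51_exists_exp_jAt M
  have hEjM : E jM = p0 :=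
    Fermat.Agent.S24.h84_E_eq M g (Fermat.Agent.S24.isAn_jdBar M M (dvd_refl M))
      (hp0.congr (fun τ => by rw [hginv]))
  have hEjMord : (E jM).order = -1 := by rw [hEjM, hp0ord]
  have hjM0 : jM ≠ 0 := by
    intro h0
    rw [h0, map_zero, HahnSeries.order_zero] at hEjMord
    norm_num at hEjMord
  have ht : 0 < (E jM⁻¹).order := by
    rw [Fermat.Agent.S24.h87_order_map_inv, hEjMord]
    norm_num
  obtain ⟨v, m, hm, hv⟩ := Fermat.Agent.S24.exists_place_of_emb (K := Kbar) (F := FF M)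
    jM⁻¹ Fermat.Agent.S24.embC E (Fermat.Agent.S24.h84_E_cst M g) ht
  -- `m = 1`
  have hm1 : m = 1 := by
    have h1 := hv jM hjM0
    rw [hEjMord] at h1
    have h2 : (m : ℤ) ∣ 1 := ⟨-v.ord jM, by linarith⟩
    have h3 : m ∣ 1 := Int.natCast_dvd_natCast.mp (by simpa using h2)
    exact Nat.dvd_one.mp h3
  subst hm1
  refine ⟨v, fun y hy => ?_⟩
  have hy' : degen h y ≠ 0 := (map_ne_zero (degen h)).mpr hy
  obtain ⟨P, Q, hAn⟩ := Fermat.Agent.S24.exists_isAn N y
  have hAnM := h51_isAn_degen h hAn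
  obtain ⟨p, hp⟩ := hAnM.expP g⁻¹
  obtain ⟨q, hq⟩ := hAnM.expQ g⁻¹
  have hord := Fermat.Agent.S24.h84_order_E M g hy' hAnM hp hq
  have hp0' : p ≠ 0 := Fermat.Agent.S24.h23_series_ne_zero hp
    (Fermat.Agent.S24.h84_translate_ne_zero (hAn.P_ne hy) g)
  have hq0' : q ≠ 0 := Fermat.Agent.S24.h23_series_ne_zero hq
    (Fermat.Agent.S24.h84_translate_ne_zero hAn.Q_ne g)
  have hperP : ∀ τ : ℍ, (fun τ => P (g⁻¹ • τ)) (ModularGroup.T ^ N • τ)
      = (fun τ => P (g⁻¹ • τ)) τ := fun τ => by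
    simp only [hginv]
    exact h51_periodic hAn.invP τ
  have hperQ : ∀ τ : ℍ, (fun τ => Q (g⁻¹ • τ)) (ModularGroup.T ^ N • τ)
      = (fun τ => Q (g⁻¹ • τ)) τ := fun τ => by
    simp only [hginv]
    exact h51_periodic hAn.invQ τ
  have h1 := Fermat.Agent.S24.HasTExp.dvd_mul_order_of_periodic hp hp0' N hN hperP
  have h2 := Fermat.Agent.S24.HasTExp.dvd_mul_order_of_periodic hq hq0' N hN hperQ
  have hMN : (M : ℤ) = (N : ℤ) * ((M / N : ℕ) : ℤ) := by
    exact_mod_cast (Nat.mul_div_cancel' h).symm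
  have hN0 : (N : ℤ) ≠ 0 := by exact_mod_cast hN.ne'
  rw [hMN] at h1 h2
  have h1' := Int.dvd_of_mul_dvd_mul_left hN0 h1
  have h2' := Int.dvd_of_mul_dvd_mul_left hN0 h2
  have h3 := hv (degen h y) hy'
  rw [Nat.cast_one, one_mul] at h3
  rw [← h3, hE, hord]
  exact dvd_sub h1' h2'

end Fermat.Agent.Red.Desc
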