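import Fermat.Agent.S37.Defs
import Fermat.Agent.Red.HKMod
import Fermat.Agent.Red.SM.Unram
import Fermat.Agent.S21.C1.PrimCount

/-!
# P-RED, R-DESC-C: the degree of `F_M / F_N` and the numerical inequality at the good level

* `finrank_degen_mul` : for `N ∣ M`, `F_M` is finite over `F_N` and
  `[F_M : F_N] * ψ(N) = ψ(M)`;
* `dedekindPsi_goodLevel_lt` : `ψ(goodLevel ℓ N) < 2 * (goodLevel ℓ N / N) * ψ(N)`.
-/

set_option autoImplicit false
set_option linter.style.haveILetI false

open AlgebraicCurve ModularCurve IntermediateField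

noncomputable section

namespace Fermat.Agent.Red.Desc

open Fermat.Agent.S37

/-! ## A general tower law along a homomorphism of fields -/

section General

variable {K F F' : Type*} [Field K] [Field F] [Field F'] [Algebra K F] [Algebra K F']

/-- tower law along `φ : F → F'`: `[F : K(x)] * [F' : φ F] = [F' : K(φ x)]`. -/
theorem h93_finrank_adjoin_mul_finrankAlong (φ : F →ₐ[K] F') (x : F) :
    Module.finrank K⟮x⟯ F * finrankAlong K φ = Module.finrank K⟮φ x⟯ F' := by
  letI := algebraAlong φ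
  letI algL : Algebra K⟮x⟯ F' :=
    ((algebraMap F F').comp (algebraMap K⟮x⟯ F)).toAlgebra
  haveI : IsScalarTower K⟮x⟯ F F' := IsScalarTower.of_algebraMap_eq fun _ => rfl
  have h1 : Module.finrank K⟮x⟯ F * Module.finrank F F' = Module.finrank K⟮x⟯ F' :=
    Module.finrank_mul_finrank K⟮x⟯ F F'
  have hmap : (K⟮x⟯).map φ = K⟮φ x⟯ := by
    rw [adjoin_map, Set.image_singleton]
  have h2 : Module.finrank K⟮x⟯ F' = Module.finrank ((K⟮x⟯).map φ) F' := by
    refine Algebra.finrank_eq_of_equiv_equiv (equivMap K⟮x⟯ φ).toRingEquiv (RingEquiv.refl F') ?_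
    ext y
    rfl
  show Module.finrank K⟮x⟯ F * Module.finrank F F' = _
  rw [h1, h2, hmap]

end General

/-! ## The degree of `F_M` over `F_N` -/

theorem h93_degen_jBar {N M : ℕ} [NeZero N] [NeZero M] (h : N ∣ M) :
    degen h (Fermat.Agent.S24.jBar N) = Fermat.Agent.S24.jBar M :=
  Subtype.ext (by rw [coe_degen]; rfl)

/-- **DESC-C (degree).**  `F_M` is finite over `F_N` and `[F_M : F_N] * ψ(N) = ψ(M)`. -/
theorem finrank_degen_mul (N M : ℕ) [NeZero N] [NeZero M] (h : N ∣ M) :
    FiniteAlong Kbar (degen h) ∧ finrankAlong Kbar (degen h) * dedekindPsi N = dedekindPsi M := by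
  have hN := Fermat.Agent.Red.SM.h31_ifaceFin N
  have hM := Fermat.Agent.Red.SM.h31_ifaceFin M
  refine ⟨?_, ?_⟩
  · haveI : FiniteDimensional Kbar⟮degen h (Fermat.Agent.S24.jBar N)⟯ (FF M) := by
      rw [h93_degen_jBar h]
      exact hM.2.1
    exact Fermat.Agent.Red.HKMod.finiteAlong_of_finiteDimensional_adjoin (degen h)
      (Fermat.Agent.S24.jBar N)
  · have key := h93_finrank_adjoin_mul_finrankAlong (degen h) (Fermat.Agent.S24.jBar N)
    rw [h93_degen_jBar h, hN.2.2, hM.2.2] at key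
    rw [mul_comm]
    exact key

/-! ## The numerical inequality -/

theorem h93_dedekindPsi_pos (N : ℕ) [NeZero N] : 0 < dedekindPsi N :=
  Nat.pos_of_ne_zero (Fermat.Agent.S24.dedekindPsi_ne_zero' N)

/-- `ψ(lcm N p²) < 2 * (lcm N p² / N) * ψ(N)` for a prime `p`. -/
theorem h93_dedekindPsi_lcm_sq_lt {p : ℕ} (hp : p.Prime) (N : ℕ) [NeZero N] :
    dedekindPsi (Nat.lcm N (p ^ 2)) < 2 * (Nat.lcm N (p ^ 2) / N) * dedekindPsi N := by
  have hN0 : N ≠ 0 := NeZero.ne N
  obtain ⟨k, N', hpN', rfl⟩ := Nat.exists_eq_pow_mul_and_not_dvd hN0 p hp.ne_one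
  have hN'0 : N' ≠ 0 := by
    rintro rfl
    simp at hN0
  haveI : NeZero N' := ⟨hN'0⟩
  have hcop : ∀ j : ℕ, (p ^ j).Coprime N' := fun j =>
    Nat.Coprime.pow_left j ((Nat.Prime.coprime_iff_not_dvd hp).mpr hpN')
  have hψN' : 0 < dedekindPsi N' := h93_dedekindPsi_pos N'
  have hp2 : 2 ≤ p := hp.two_le
  -- the lcm
  have hlcm : Nat.lcm (p ^ k * N') (p ^ 2) = p ^ (max k 2) * N' := by
    apply Nat.dvd_antisymm
    · apply Nat.lcm_dvd
      · exact Nat.mul_dvd_mul (pow_dvd_pow p (le_max_left k 2)) dvd_rfl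
      · exact Dvd.dvd.mul_right (pow_dvd_pow p (le_max_right k 2)) N'
    · apply Nat.Coprime.mul_dvd_of_dvd_of_dvd (hcop _)
      · rcases le_total k 2 with hk | hk
        · rw [max_eq_right hk]; exact Nat.dvd_lcm_right _ _
        · rw [max_eq_left hk]
          exact (Dvd.intro _ rfl).trans (Nat.dvd_lcm_left _ _)
      · exact (Dvd.intro_left _ rfl).trans (Nat.dvd_lcm_left _ _)
  rw [hlcm, Fermat.Agent.S21.C1.dedekindPsi_mul (hcop _), Fermat.Agent.S21.C1.dedekindPsi_mul (hcop _)]
  have hdiv : p ^ (max k 2) * N' / (p ^ k * N') = p ^ (max k 2 - k) := by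
    have hle : k ≤ max k 2 := le_max_left k 2
    have : p ^ (max k 2) * N' = p ^ (max k 2 - k) * (p ^ k * N') := by
      rw [← mul_assoc, ← pow_add, Nat.sub_add_cancel hle]
    rw [this]
    exact Nat.mul_div_cancel _ (Nat.pos_of_ne_zero (by simpa using hN0))
  rw [hdiv]
  have hpp : 0 < p := hp.pos
  rcases Nat.lt_or_ge k 2 with hk | hk
  · rw [max_eq_right hk.le]
    interval_cases k
    · -- k = 0
      rw [pow_zero, dedekindPsi_one, Fermat.Agent.S21.C1.dedekindPsi_prime_pow hp (by norm_num)]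
      simp only [Nat.sub_zero, one_mul]
      have : p ^ 2 + p ^ (2 - 1) < 2 * p ^ 2 := by
        norm_num
        nlinarith
      calc (p ^ 2 + p ^ (2 - 1)) * dedekindPsi N'
          < (2 * p ^ 2) * dedekindPsi N' := Nat.mul_lt_mul_of_pos_right this hψN'
        _ = _ := by ring
    · -- k = 1
      rw [Fermat.Agent.S21.C1.dedekindPsi_prime_pow hp (by norm_num),
        Fermat.Agent.S21.C1.dedekindPsi_prime_pow hp (by norm_num)]
      norm_num
      have : p ^ 2 + p < 2 * p * (p + 1) := by nlinarith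
      calc (p ^ 2 + p) * dedekindPsi N'
          < (2 * p * (p + 1)) * dedekindPsi N' := Nat.mul_lt_mul_of_pos_right this hψN'
        _ = _ := by ring
  · rw [max_eq_left hk, Nat.sub_self, pow_zero]
    have hpos : 0 < dedekindPsi (p ^ k) * dedekindPsi N' := by
      have : 0 < dedekindPsi (p ^ k) := by
        rw [Fermat.Agent.S21.C1.dedekindPsi_prime_pow hp (by omega)]
        positivity
      positivity
    omega

/-- **DESC-C (numerics).** -/
theorem dedekindPsi_goodLevel_lt (ℓ N : ℕ) [NeZero N] :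
    dedekindPsi (goodLevel ℓ N) < 2 * (goodLevel ℓ N / N) * dedekindPsi N := by
  unfold goodLevel auxLevel
  split_ifs
  · exact h93_dedekindPsi_lcm_sq_lt (p := 3) Nat.prime_three N
  · exact h93_dedekindPsi_lcm_sq_lt (p := 2) Nat.prime_two N

end Fermat.Agent.Red.Desc
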