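import Fermat.Agent.Red.Desc.Asm
import Fermat.Agent.Red.Desc.CuspPlace
import Fermat.Agent.Red.Desc.Degree

/-!
# P-RED, task R-DESC (helper77): the descent of roots from the good level, final form

* `ifaceGateDescent : IfaceGateDescent`
* `ifacePullbackInj : IfacePullbackInj`

Inputs: the algebraic core `desc_core` (`Core.lean`), the cusp place (helper51, `CuspPlace.lean`),
the degree formula and the numerical inequality (helper93, `Degree.lean`).
-/

set_option autoImplicit false

open AlgebraicCurve ModularCurve IntermediateField

namespace Fermat.Agent.Red.Desc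

open Fermat.Agent.S37

/-- **DESC.** -/
theorem ifaceGateDescent : IfaceGateDescent :=
  ifaceGateDescent_of (fun N M _ _ h => exists_place_cuspZero N M h)
    (fun N M _ _ h => (finrank_degen_mul N M h).2)
    (fun ℓ N _ => dedekindPsi_goodLevel_lt ℓ N)

/-- **TRK-b.** -/
theorem ifacePullbackInj : IfacePullbackInj :=
  ifacePullbackInj_of ifaceGateDescent

end Fermat.Agent.Red.Desc
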