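import Fermat.Agent.Red.Desc.Core
import Fermat.Agent.Red.CH0
import Fermat.Agent.Jac.HKM.Const
import Fermat.Agent.S37.Gate

/-!
# P-RED, task R-DESC (helper77): assembly of the descent of roots

* `desc_along` : the descent of `r`-th roots along a degeneracy inclusion `F_N ⊆ F_M` possessing a
  place `P` of `F_M` all of whose orders on `F_N` are divisible by `M / N`, provided
  `[F_M : F_N] < 2 (M / N)`.
* `ifaceGateDescent_of` : `IfaceGateDescent` from the cusp place (DESC-B), the degree formula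
  and the numerical inequality (DESC-C).
* `ifacePullbackInj_of` : `IfacePullbackInj` from `IfaceGateDescent`.
-/

set_option autoImplicit false

open AlgebraicCurve ModularCurve IntermediateField

noncomputable section

namespace Fermat.Agent.Red.Desc

open Fermat.Agent.S37

/-- hypothesis form of DESC-B: a place of `F_M` whose orders on `F_N` are divisible by `M / N`
(the cusp `0`) -/
def CuspPlaceHyp : Prop :=
  ∀ (N M : ℕ) [NeZero N] [NeZero M] (h : N ∣ M),
    ∃ P : Place Kbar (FF M), ∀ y : FF N, y ≠ 0 → ((M / N : ℕ) : ℤ) ∣ P.ord (degen h y)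

/-- hypothesis form of DESC-C: the degree of `F_M / F_N` -/
def DegreeHyp : Prop :=
  ∀ (N M : ℕ) [NeZero N] [NeZero M] (h : N ∣ M),
    finrankAlong Kbar (degen h) * dedekindPsi N = dedekindPsi M

/-- hypothesis form of DESC-C: the numerical inequality -/
def NumericHyp : Prop :=
  ∀ (ℓ N : ℕ) [NeZero N],
    dedekindPsi (goodLevel ℓ N) < 2 * (goodLevel ℓ N / N) * dedekindPsi N

/-- descent of roots along `F_N ⊆ F_M`. -/
theorem desc_along {N M : ℕ} [NeZero N] [NeZero M] (hNM : N ∣ M) (P : Place Kbar (FF M))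
    (hP : ∀ y : FF N, y ≠ 0 → ((M / N : ℕ) : ℤ) ∣ P.ord (degen hNM y))
    (hdeg : finrankAlong Kbar (degen hNM) < 2 * (M / N))
    (r : ℕ) (hr : r.Prime) (w : FF N) (hw : w ≠ 0)
    (hdiv : ∀ v : Place Kbar (FF N), (r : ℤ) ∣ v.ord w)
    (h : FF M) (hh : h ^ r = degen hNM w) : ∃ b : FF N, b ^ r = w := by
  by_contra hnot
  have hnot' : ∀ b : FF N, b ^ r ≠ w := fun b hb => hnot ⟨b, hb⟩
  letI := algebraAlong (degen hNM)
  haveI := isScalarTower_along (degen hNM)
  haveI : Module.Finite (FF N) (FF M) := CH0.finiteAlong_degen hNM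
  haveI : Algebra.IsIntegral (FF N) (FF M) := isIntegral_along _ (CH0.isIntegral_degen hNM)
  have hres : ∀ z : P.toValuationSubring, ∃ a : Kbar,
      z - algebraMap Kbar P.toValuationSubring a ∈
        IsLocalRing.maximalIdeal P.toValuationSubring := by
    haveI := HKMod.finiteDimensional_jBar M
    have halg : Algebra.IsAlgebraic Kbar⟮Fermat.Agent.S24.jBar M⟯ (FF M) :=
      Algebra.IsAlgebraic.of_finite _ _
    exact fun z => Fermat.Agent.S24.DiffPlace.exists_const_sub_mem_maximalIdeal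
      (Fermat.Agent.S24.jBar M) halg P z
  have hdiv' : ((r * P.ramificationIndex (FF N) : ℕ) : ℤ) ∣
      P.ord (algebraMap (FF N) (FF M) w) := by
    rw [P.ord_restrict w]
    push_cast
    rw [mul_comm (r : ℤ)]
    exact mul_dvd_mul_left _ (hdiv _)
  have hcore := desc_core P hres r hr w hw hdiv' h hh hnot'
  obtain ⟨t, ht0, hte⟩ := P.exists_ord_eq_ramificationIndex (F := FF N)
  have hdvd : ((M / N : ℕ) : ℤ) ∣ (P.ramificationIndex (FF N) : ℤ) := by
    rw [← hte]
    exact hP t ht0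
  have hepos := P.ramificationIndex_pos (F := FF N)
  have hle : M / N ≤ P.ramificationIndex (FF N) :=
    Nat.le_of_dvd hepos (Int.natCast_dvd_natCast.mp hdvd)
  have h2 : 2 ≤ r := hr.two_le
  have h3 : 2 * (M / N) ≤ r * P.ramificationIndex (FF N) := Nat.mul_le_mul h2 hle
  have hfr : finrankAlong Kbar (degen hNM) = Module.finrank (FF N) (FF M) := rfl
  omega

/-- **DESC** from the cusp place, the degree formula and the numerical inequality. -/
theorem ifaceGateDescent_of (hB : CuspPlaceHyp) (hC : DegreeHyp) (hnum : NumericHyp) :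
    IfaceGateDescent := by
  intro ℓ N _ r hr w hw hdiv hroot
  obtain ⟨h, hh⟩ := hroot
  obtain ⟨P, hP⟩ := hB N (goodLevel ℓ N) (dvd_goodLevel ℓ N)
  have hdeg := hC N (goodLevel ℓ N) (dvd_goodLevel ℓ N)
  have hn := hnum ℓ N
  have hlt : finrankAlong Kbar (degen (dvd_goodLevel ℓ N)) < 2 * (goodLevel ℓ N / N) := by
    rw [← hdeg] at hn
    exact lt_of_mul_lt_mul_right hn (Nat.zero_le _)
  exact desc_along (dvd_goodLevel ℓ N) P hP hlt r hr w hw hdiv h hh

/-- **TRK-b** from **DESC**. -/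
theorem ifacePullbackInj_of (hDesc : IfaceGateDescent) : IfacePullbackInj := by
  intro ℓ N _ hint _ r hr D _ hrD hpD
  obtain ⟨u, hu0, hu⟩ := hrD
  obtain ⟨g, hg0, hg⟩ := hpD
  have hr0 : (r : ℤ) ≠ 0 := by exact_mod_cast hr.ne_zero
  -- the orders of `g ^ r` and of `u`
  have hord : ∀ w : Place Kbar (FF (goodLevel ℓ N)),
      w.ord (degen (dvd_goodLevel ℓ N) u) = (r : ℤ) * w.ord g := by
    intro w
    have h1 : Divisor.pullbackAlong (degen (dvd_goodLevel ℓ N)) hint (r • D) w =
        w.ord (degen (dvd_goodLevel ℓ N) u) := by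
      letI := algebraAlong (degen (dvd_goodLevel ℓ N))
      haveI := isScalarTower_along (degen (dvd_goodLevel ℓ N))
      haveI := isIntegral_along (degen (dvd_goodLevel ℓ N)) hint
      exact Divisor.pullback_apply_eq_ord hu w
    rw [← h1, map_nsmul, Finsupp.smul_apply, hg w, nsmul_eq_mul]
  have hφu0 : degen (dvd_goodLevel ℓ N) u ≠ 0 := by simpa using hu0
  have key : ∀ w : Place Kbar (FF (goodLevel ℓ N)),
      w.ord (g ^ r * (degen (dvd_goodLevel ℓ N) u)⁻¹) = 0 := by
    intro w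
    rw [w.ord_mul (pow_ne_zero _ hg0) (inv_ne_zero hφu0), w.ord_inv, hord w, ord_pow']
    ring
  obtain ⟨c, hc⟩ := Fermat.Agent.Jac.HKM.h57_const_of_ord_zero (goodLevel ℓ N) _ key
  have hc0 : c ≠ 0 := by
    rintro rfl
    rw [map_zero] at hc
    exact mul_ne_zero (pow_ne_zero _ hg0) (inv_ne_zero hφu0) hc.symm
  obtain ⟨c', hc'⟩ := IsAlgClosed.exists_pow_nat_eq c hr.pos
  have hc'0 : c' ≠ 0 := by
    rintro rfl
    rw [zero_pow hr.ne_zero] at hc'
    exact hc0 hc'.symm
  have hroot : (g * (algebraMap Kbar (FF (goodLevel ℓ N)) c')⁻¹) ^ r =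
      degen (dvd_goodLevel ℓ N) u := by
    have hA : algebraMap Kbar (FF (goodLevel ℓ N)) c' ≠ 0 := by simpa using hc'0
    rw [mul_pow, inv_pow, ← map_pow, hc', hc]
    field_simp
  have hdivu : ∀ v : Place Kbar (FF N), (r : ℤ) ∣ v.ord u := by
    intro v
    refine ⟨D v, ?_⟩
    rw [← hu v, Finsupp.smul_apply, nsmul_eq_mul]
  obtain ⟨b, hb⟩ := hDesc ℓ N r hr u hu0 hdivu ⟨_, hroot⟩
  have hb0 : b ≠ 0 := by
    rintro rfl
    rw [zero_pow hr.ne_zero] at hb
    exact hu0 hb.symm
  refine ⟨b, hb0, fun v => ?_⟩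
  have h1 : (r : ℤ) * D v = (r : ℤ) * v.ord b := by
    rw [← ord_pow', hb, ← hu v, Finsupp.smul_apply, nsmul_eq_mul]
  exact mul_left_cancel₀ hr0 h1

end Fermat.Agent.Red.Desc
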