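import Fermat.Agent.Red.Desc.Val
import Fermat.Prelude.Def_AlgebraicCurve_Correspondence

/-!
# P-RED, task R-DESC (helper77): the algebraic core of the descent of roots

`F'/F` a finite extension of function fields over `K` (characteristic zero), `P` a place of `F'`
whose residue field is `K`, `e` the ramification index of `P` over `F`.  If `w ∈ F` is an `r`-th
power in `F'` (`r` prime) but not in `F`, and `r e ∣ ord_P w`, then `r e ≤ [F' : F]`.

Proof: normalise `ord_P w = 0`, `w = g ^ r`.  The root `g` can be approximated `P`-adically by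
elements of `F` (Hensel-type successive approximation), hence every `F`-combination of
`1, g, …, g^(r-1)` has order divisible by `e`; therefore the `r e` elements `g^i π^j`
(`i < r`, `j < e`, `π` a uniformizer at `P`) are linearly independent over `F`.
-/

set_option autoImplicit false

open AlgebraicCurve Polynomial

namespace Fermat.Agent.Red.Desc

open Fermat.Agent.S24.DiffPlace

section

variable {K F F' : Type*} [Field K] [Field F] [Field F'] [Algebra K F] [Algebra K F']
  [Algebra F F'] [IsScalarTower K F F']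

/-- elements of the valuation ring are congruent to constants -/
theorem res_approx (P : Place K F')
    (hres : ∀ z : P.toValuationSubring, ∃ a : K,
      z - algebraMap K P.toValuationSubring a ∈ IsLocalRing.maximalIdeal P.toValuationSubring)
    {x : F'} (hx : Ge P 0 x) : ∃ a : K, Ge P 1 (x - algebraMap K F' a) := by
  obtain ⟨a, ha⟩ := hres ⟨x, ge_zero_iff_mem.mp hx⟩
  exact ⟨a, ge_one_of_mem_maximalIdeal ha⟩

theorem pow_sub_pow_ge (P : Place K F') {x y : F'} {n : ℤ} (hx : Ge P 0 x) (hy : Ge P 0 y)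
    (hxy : Ge P n (x - y)) (k : ℕ) : Ge P n (x ^ k - y ^ k) := by
  rw [← geom_sum₂_mul]
  have h1 : Ge P 0 (∑ i ∈ Finset.range k, x ^ i * y ^ (k - 1 - i)) :=
    Ge.sum _ fun i _ => by simpa using (hx.pow i).mul (hy.pow (k - 1 - i))
  simpa using h1.mul hxy

/-- the geometric sum `Σ g^i b^(r-1-i)` is a unit if `g` is a unit and `b ≡ g` -/
theorem geom_sum_unit [CharZero K] (P : Place K F') {g b : F'} (hg0 : g ≠ 0)
    (hgo : P.ord g = 0) (hb : Ge P 1 (g - b)) {r : ℕ} (hr : r ≠ 0) :
    (∑ i ∈ Finset.range r, g ^ i * b ^ (r - 1 - i)) ≠ 0 ∧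
      P.ord (∑ i ∈ Finset.range r, g ^ i * b ^ (r - 1 - i)) = 0 := by
  have hg : Ge P 0 g := Ge.of_le (by rw [hgo])
  have hb0 : Ge P 0 b := by
    have := hg.sub (hb.mono (by norm_num : (0 : ℤ) ≤ 1))
    rwa [sub_sub_cancel] at this
  set x : F' := algebraMap K F' (r : K) * g ^ (r - 1) with hx
  have hrK : algebraMap K F' (r : K) ≠ 0 :=
    (map_ne_zero (algebraMap K F')).mpr (by exact_mod_cast hr)
  have hx0 : x ≠ 0 := mul_ne_zero hrK (pow_ne_zero _ hg0)
  have hxo : P.ord x = 0 := by
    rw [hx, P.ord_mul hrK (pow_ne_zero _ hg0), ord_algebraMap, ord_pow', hgo]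
    simp
  have hxs : x = ∑ i ∈ Finset.range r, g ^ i * g ^ (r - 1 - i) := by
    have h1 : ∀ i ∈ Finset.range r, g ^ i * g ^ (r - 1 - i) = g ^ (r - 1) := by
      intro i hi
      rw [← pow_add]
      congr 1
      have := Finset.mem_range.mp hi
      omega
    rw [Finset.sum_congr rfl h1, Finset.sum_const, Finset.card_range, hx, nsmul_eq_mul]
    simp
  have hdiff : Ge P (P.ord x + 1)
      (x - ∑ i ∈ Finset.range r, g ^ i * b ^ (r - 1 - i)) := by
    rw [hxo, zero_add, hxs, ← Finset.sum_sub_distrib]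
    refine Ge.sum _ fun i _ => ?_
    rw [← mul_sub]
    have h2 := pow_sub_pow_ge P hg hb0 hb (r - 1 - i)
    simpa using (hg.pow i).mul h2
  have := ord_eq_of_ge_sub hx0 hdiff
  exact ⟨this.1, by rw [this.2, hxo]⟩

variable [Algebra.IsIntegral F F']

/-- successive approximation of a root by elements of `F` -/
theorem approx [CharZero K] (P : Place K F')
    (hres : ∀ z : P.toValuationSubring, ∃ a : K,
      z - algebraMap K P.toValuationSubring a ∈ IsLocalRing.maximalIdeal P.toValuationSubring)
    {r : ℕ} (hr : r ≠ 0) {w : F} {g : F'} (hg0 : g ≠ 0) (hgo : P.ord g = 0)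
    (hgw : g ^ r = algebraMap F F' w) (n : ℕ) :
    ∃ b : F, Ge P n (g - algebraMap F F' b) := by
  have hg : Ge P 0 g := Ge.of_le (by rw [hgo])
  induction n with
  | zero =>
    refine ⟨0, ?_⟩
    simpa using hg
  | succ n ih =>
    obtain ⟨b, hb⟩ := ih
    by_cases hG : Ge P ((n + 1 : ℕ) : ℤ) (g - algebraMap F F' b)
    · exact ⟨b, hG⟩
    rcases Nat.eq_zero_or_pos n with hn0 | hnpos
    · -- first step: a constant
      subst hn0
      obtain ⟨a, ha⟩ := res_approx P hres hg
      refine ⟨algebraMap K F a, ?_⟩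
      rw [← IsScalarTower.algebraMap_apply]
      simpa using ha
    -- the general step
    set z : F' := g - algebraMap F F' b with hz
    have hz0 : z ≠ 0 := fun h0 => hG (Or.inl h0)
    have hzn : P.ord z = n := by
      have h1 := hb.le hz0
      have h2 : ¬ ((n + 1 : ℕ) : ℤ) ≤ P.ord z := fun h => hG (Or.inr h)
      push_cast at h2
      omega
    have hb1 : Ge P 1 (g - algebraMap F F' b) := hb.mono (by exact_mod_cast hnpos)
    obtain ⟨hS0, hSo⟩ := geom_sum_unit P hg0 hgo hb1 hr
    set S : F' := ∑ i ∈ Finset.range r, g ^ i * (algebraMap F F' b) ^ (r - 1 - i) with hS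
    have hSz : S * z = algebraMap F F' (w - b ^ r) := by
      rw [hS, hz, geom_sum₂_mul, map_sub, map_pow, hgw]
    have hy0 : w - b ^ r ≠ 0 := by
      intro h0
      rw [h0, map_zero] at hSz
      exact mul_ne_zero hS0 hz0 hSz
    have hyo : P.ord (algebraMap F F' (w - b ^ r)) = n := by
      rw [← hSz, P.ord_mul hS0 hz0, hSo, hzn, zero_add]
    -- the ramification index divides `n`
    have hdvd := P.ramificationIndex_dvd_ord (F := F) hy0
    rw [hyo] at hdvd
    obtain ⟨k, hk⟩ := hdvd
    have hepos : 0 < P.ramificationIndex F := P.ramificationIndex_pos (F := F)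
    have hkpos : 0 < k := by
      by_contra hk0
      have hk0' : k ≤ 0 := not_lt.mp hk0
      have : ((P.ramificationIndex F : ℕ) : ℤ) * k ≤ 0 :=
        mul_nonpos_of_nonneg_of_nonpos (by positivity) hk0'
      have hn' : (0 : ℤ) < n := by exact_mod_cast hnpos
      omega
    obtain ⟨t, ht0, hte⟩ := P.exists_ord_eq_ramificationIndex (F := F)
    have hιt0 : algebraMap F F' t ≠ 0 := by simpa using ht0
    set τ : F' := algebraMap F F' t ^ k.toNat with hτ
    have hτ0 : τ ≠ 0 := pow_ne_zero _ hιt0
    have hτo : P.ord τ = n := by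
      rw [hτ, ord_pow', hte, hk]
      have : ((k.toNat : ℕ) : ℤ) = k := Int.toNat_of_nonneg hkpos.le
      rw [this]
      ring
    have hq : Ge P 0 (z * τ⁻¹) := by
      refine Ge.of_le ?_
      rw [P.ord_mul hz0 (inv_ne_zero hτ0), P.ord_inv, hzn, hτo]
      omega
    obtain ⟨a, ha⟩ := res_approx P hres hq
    refine ⟨b + algebraMap K F a * t ^ k.toNat, ?_⟩
    have h1 : g - algebraMap F F' (b + algebraMap K F a * t ^ k.toNat) =
        τ * (z * τ⁻¹ - algebraMap K F' a) := by
      rw [map_add, map_mul, map_pow, ← IsScalarTower.algebraMap_apply, hz, hτ]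
      field_simp
      ring
    rw [h1]
    have h2 : Ge P ((n : ℤ) + 1) (τ * (z * τ⁻¹ - algebraMap K F' a)) :=
      (Ge.of_le (by rw [hτo])).mul ha
    exact_mod_cast h2


/-- every nonzero `F`-combination of powers of `g` has the order of an element of `F` -/
theorem exists_ord_eq_of_combination [CharZero K] (P : Place K F')
    (hres : ∀ z : P.toValuationSubring, ∃ a : K,
      z - algebraMap K P.toValuationSubring a ∈ IsLocalRing.maximalIdeal P.toValuationSubring)
    {r : ℕ} (hr : r ≠ 0) {w : F} {g : F'} (hg0 : g ≠ 0) (hgo : P.ord g = 0)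
    (hgw : g ^ r = algebraMap F F' w) {m : ℕ} (a : Fin m → F)
    (hc : (∑ i, algebraMap F F' (a i) * g ^ (i : ℕ)) ≠ 0) :
    ∃ y : F, y ≠ 0 ∧
      P.ord (algebraMap F F' y) = P.ord (∑ i, algebraMap F F' (a i) * g ^ (i : ℕ)) := by
  classical
  set c : F' := ∑ i, algebraMap F F' (a i) * g ^ (i : ℕ) with hcdef
  have hg : Ge P 0 g := Ge.of_le (by rw [hgo])
  -- a common lower bound for the orders of the coefficients
  obtain ⟨B₀, hB₀⟩ := (Finset.univ.image fun i => -P.ord (algebraMap F F' (a i))).exists_le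
  obtain ⟨A₀, hA₀⟩ : ∃ A₀ : ℤ, A₀ = -B₀ := ⟨_, rfl⟩
  have hA : ∀ i, Ge P A₀ (algebraMap F F' (a i)) := fun i => by
    refine Ge.of_le ?_
    have := hB₀ _ (Finset.mem_image_of_mem (fun i => -P.ord (algebraMap F F' (a i)))
      (Finset.mem_univ i))
    have this' : -P.ord (algebraMap F F' (a i)) ≤ B₀ := this
    omega
  set n : ℕ := (P.ord c + 1 - A₀).toNat + 1 with hn
  have hn1 : (1 : ℤ) ≤ n := by rw [hn]; push_cast; omega
  have hnA : P.ord c + 1 ≤ A₀ + n := by
    rw [hn]; push_cast
    have := Int.self_le_toNat (P.ord c + 1 - A₀)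
    omega
  obtain ⟨b, hb⟩ := approx P hres hr hg0 hgo hgw n
  have hb0 : Ge P 0 (algebraMap F F' b) := by
    have := hg.sub (hb.mono (by omega : (0 : ℤ) ≤ n))
    rwa [sub_sub_cancel] at this
  refine ⟨∑ i, a i * b ^ (i : ℕ), ?_⟩
  have hdiff : Ge P (P.ord c + 1) (c - algebraMap F F' (∑ i, a i * b ^ (i : ℕ))) := by
    rw [map_sum, hcdef, ← Finset.sum_sub_distrib]
    refine Ge.sum _ fun i _ => ?_
    rw [map_mul, map_pow, ← mul_sub]
    exact ((hA i).mul (pow_sub_pow_ge P hg hb0 hb i)).mono hnA
  obtain ⟨h1, h2⟩ := ord_eq_of_ge_sub hc hdiff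
  refine ⟨fun h0 => h1 (by rw [h0, map_zero]), h2⟩

omit [Algebra.IsIntegral F F'] in
/-- the powers `1, g, …, g^(r-1)` of a root of the irreducible polynomial `X^r - w` are linearly
independent -/
theorem linearIndependent_pow_root {r : ℕ} (hr : r.Prime) {w : F} (hnot : ∀ b : F, b ^ r ≠ w)
    {g : F'} (hgw : g ^ r = algebraMap F F' w) :
    LinearIndependent F (fun i : Fin r => g ^ (i : ℕ)) := by
  have hirr : Irreducible (X ^ r - C w : F[X]) := X_pow_sub_C_irreducible_of_prime hr hnot
  have hmonic : (X ^ r - C w : F[X]).Monic := monic_X_pow_sub_C w hr.ne_zero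
  have hroot : aeval g (X ^ r - C w : F[X]) = 0 := by
    simp [hgw]
  have hmin : (X ^ r - C w : F[X]) = minpoly F g :=
    minpoly.eq_of_irreducible_of_monic hirr hroot hmonic
  have hdeg : (minpoly F g).natDegree = r := by
    rw [← hmin, natDegree_X_pow_sub_C]
  have h := linearIndependent_pow (K := F) g
  have h2 := h.comp (Fin.cast hdeg.symm) (Fin.cast_injective _)
  exact h2

/-- the normalised core: `ord_P g = 0`. -/
theorem core_unit [CharZero K] [Module.Finite F F'] (P : Place K F')
    (hres : ∀ z : P.toValuationSubring, ∃ a : K,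
      z - algebraMap K P.toValuationSubring a ∈ IsLocalRing.maximalIdeal P.toValuationSubring)
    {r : ℕ} (hr : r.Prime) {w : F} (hnot : ∀ b : F, b ^ r ≠ w) {g : F'} (hg0 : g ≠ 0)
    (hgo : P.ord g = 0) (hgw : g ^ r = algebraMap F F' w) :
    r * P.ramificationIndex F ≤ Module.finrank F F' := by
  classical
  set e : ℕ := P.ramificationIndex F with he
  have hepos : 0 < e := P.ramificationIndex_pos (F := F)
  obtain ⟨π, hπ0, hπo⟩ := exists_ord_eq_one (v := P)
  have hpow := linearIndependent_pow_root (F' := F') hr hnot hgw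
  -- the family
  have hli : LinearIndependent F
      (fun p : Fin r × Fin e => g ^ (p.1 : ℕ) * π ^ (p.2 : ℕ)) := by
    rw [Fintype.linearIndependent_iff]
    intro a ha
    -- the coefficients of the powers of `π`
    set c : Fin e → F' := fun j => ∑ i, algebraMap F F' (a (i, j)) * g ^ (i : ℕ) with hc
    have hsum : ∑ j, c j * π ^ (j : ℕ) = 0 := by
      rw [← ha, Fintype.sum_prod_type_right]
      refine Finset.sum_congr rfl fun j _ => ?_
      rw [hc, Finset.sum_mul]
      refine Finset.sum_congr rfl fun i _ => ?_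
      rw [Algebra.smul_def, mul_assoc]
    -- orders of the nonzero coefficients are divisible by `e`
    have hdvd : ∀ j, c j ≠ 0 → (e : ℤ) ∣ P.ord (c j) := by
      intro j hj
      obtain ⟨y, hy0, hy⟩ := exists_ord_eq_of_combination P hres hr.ne_zero hg0 hgo hgw
        (fun i => a (i, j)) hj
      rw [← hy]
      exact P.ramificationIndex_dvd_ord (F := F) hy0
    have hc0 : ∀ j, c j = 0 := by
      by_contra hne
      have hne' : ∃ j, c j ≠ 0 := by
        by_contra h
        exact hne fun j => by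
          by_contra hj
          exact h ⟨j, hj⟩
      obtain ⟨j₁, hj₁⟩ := hne'
      set J : Finset (Fin e) := Finset.univ.filter fun j => c j ≠ 0 with hJ
      have hJne : J.Nonempty := ⟨j₁, by simp [hJ, hj₁]⟩
      obtain ⟨j₀, hj₀J, hmin⟩ :=
        Finset.exists_min_image J (fun j => P.ord (c j * π ^ (j : ℕ))) hJne
      have hcj₀ : c j₀ ≠ 0 := by simpa [hJ] using hj₀J
      have hord : ∀ j, c j ≠ 0 → P.ord (c j * π ^ (j : ℕ)) = P.ord (c j) + j := by
        intro j hj
        rw [P.ord_mul hj (pow_ne_zero _ hπ0), ord_pow', hπo, mul_one]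
      set x : F' := c j₀ * π ^ (j₀ : ℕ) with hx
      have hx0 : x ≠ 0 := mul_ne_zero hcj₀ (pow_ne_zero _ hπ0)
      have hrest : ∀ j ∈ Finset.univ.erase j₀, Ge P (P.ord x + 1) (c j * π ^ (j : ℕ)) := by
        intro j hj
        have hjne : j ≠ j₀ := Finset.ne_of_mem_erase hj
        by_cases hcj : c j = 0
        · rw [hcj, zero_mul]; exact Ge.zero _
        have hjJ : j ∈ J := by simp [hJ, hcj]
        have h1 := hmin j hjJ
        refine Ge.of_le ?_
        have h2 : P.ord (c j * π ^ (j : ℕ)) ≠ P.ord x := by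
          intro heq
          rw [hx, hord j hcj, hord j₀ hcj₀] at heq
          obtain ⟨k₁, hk₁⟩ := hdvd j hcj
          obtain ⟨k₂, hk₂⟩ := hdvd j₀ hcj₀
          rw [hk₁, hk₂] at heq
          have hjlt : ((j : ℕ) : ℤ) < e := by exact_mod_cast j.2
          have hj₀lt : ((j₀ : ℕ) : ℤ) < e := by exact_mod_cast j₀.2
          have hj0 : (0 : ℤ) ≤ ((j : ℕ) : ℤ) := by positivity
          have hj₀0 : (0 : ℤ) ≤ ((j₀ : ℕ) : ℤ) := by positivity
          have hkk : k₁ = k₂ := by
            by_contra hkne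
            rcases lt_or_gt_of_ne hkne with hlt | hgt
            · have : (e : ℤ) * k₁ + e ≤ e * k₂ := by
                have : k₁ + 1 ≤ k₂ := hlt
                nlinarith
              omega
            · have : (e : ℤ) * k₂ + e ≤ e * k₁ := by
                have : k₂ + 1 ≤ k₁ := hgt
                nlinarith
              omega
          rw [hkk] at heq
          have : ((j : ℕ) : ℤ) = ((j₀ : ℕ) : ℤ) := by omega
          exact hjne (Fin.ext (by exact_mod_cast this))
        have h3 : P.ord x ≤ P.ord (c j * π ^ (j : ℕ)) := h1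
        omega
      have hsplit : x + ∑ j ∈ Finset.univ.erase j₀, c j * π ^ (j : ℕ) = 0 := by
        rw [hx, Finset.add_sum_erase Finset.univ (fun j => c j * π ^ (j : ℕ))
          (Finset.mem_univ j₀)]
        exact hsum
      have hxge : Ge P (P.ord x + 1) x := by
        have h1 : x = -∑ j ∈ Finset.univ.erase j₀, c j * π ^ (j : ℕ) :=
          eq_neg_of_add_eq_zero_left hsplit
        rw [h1]
        have h2 := (Ge.sum (Finset.univ.erase j₀) hrest).neg
        rwa [← h1] at h2 ⊢
      exact not_ge_succ hx0 hxge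
    -- conclude with the linear independence of the powers of `g`
    rintro ⟨i, j⟩
    have h1 := hc0 j
    rw [hc] at h1
    have h2 : ∑ i, a (i, j) • g ^ (i : ℕ) = 0 := by
      rw [← h1]
      refine Finset.sum_congr rfl fun i _ => ?_
      rw [Algebra.smul_def]
    exact Fintype.linearIndependent_iff.mp hpow (fun i => a (i, j)) h2 i
  have hcard := hli.fintype_card_le_finrank
  simpa [Fintype.card_prod, Fintype.card_fin] using hcard

/-- **DESC-A (core).**  If `w ∈ F` is an `r`-th power in `F'` but not in `F`, and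
`r e ∣ ord_P w`, then `r e ≤ [F' : F]`. -/
theorem desc_core [CharZero K] [Module.Finite F F'] (P : Place K F')
    (hres : ∀ z : P.toValuationSubring, ∃ a : K,
      z - algebraMap K P.toValuationSubring a ∈ IsLocalRing.maximalIdeal P.toValuationSubring)
    (r : ℕ) (hr : r.Prime) (w : F) (hw : w ≠ 0)
    (hdiv : ((r * P.ramificationIndex F : ℕ) : ℤ) ∣ P.ord (algebraMap F F' w))
    (h : F') (hh : h ^ r = algebraMap F F' w) (hnot : ∀ b : F, b ^ r ≠ w) :
    r * P.ramificationIndex F ≤ Module.finrank F F' := by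
  obtain ⟨m, hm⟩ := hdiv
  obtain ⟨t, ht0, hte⟩ := P.exists_ord_eq_ramificationIndex (F := F)
  have hιw : algebraMap F F' w ≠ 0 := by simpa using hw
  have hh0 : h ≠ 0 := by
    rintro rfl
    rw [zero_pow hr.ne_zero] at hh
    exact hιw hh.symm
  -- normalisation
  set s : F := t ^ (-m) with hs
  have hs0 : s ≠ 0 := zpow_ne_zero _ ht0
  have hιs0 : algebraMap F F' s ≠ 0 := by simpa using hs0
  have hso : P.ord (algebraMap F F' s) = -m * P.ramificationIndex F := by
    rw [hs, map_zpow₀, P.ord_zpow, hte]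
  set u : F := w * s ^ r with hu
  set g : F' := h * algebraMap F F' s with hg
  have hg0 : g ≠ 0 := mul_ne_zero hh0 hιs0
  have hgu : g ^ r = algebraMap F F' u := by
    rw [hg, mul_pow, hh, hu, map_mul, map_pow]
  have hnot' : ∀ b : F, b ^ r ≠ u := by
    intro b hb
    apply hnot (b * s⁻¹)
    rw [mul_pow, hb, hu, inv_pow, mul_assoc, mul_inv_cancel₀ (pow_ne_zero _ hs0), mul_one]
  have hgo : P.ord g = 0 := by
    have h1 : P.ord (g ^ r) = 0 := by
      rw [hgu, hu, map_mul, map_pow, P.ord_mul hιw (pow_ne_zero _ hιs0), ord_pow', hso, hm]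
      push_cast
      ring
    rw [ord_pow'] at h1
    have hr0 : (r : ℤ) ≠ 0 := by exact_mod_cast hr.ne_zero
    rcases mul_eq_zero.mp h1 with h2 | h2
    · exact absurd h2 hr0
    · exact h2
  exact core_unit P hres hr hnot' hg0 hgo hgu

end

end Fermat.Agent.Red.Desc
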